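import Fermat.Agent.RankinSelberg.Theta
import Fermat.Agent.Poincare.Product
import Fermat.Agent.CoefficientSize.LowerBound
import Mathlib.NumberTheory.LSeries.SumCoeff
import Mathlib.NumberTheory.LSeries.MellinEqDirichlet

/-!
# Unfolding against powers of the height

The integral of `y ^ k |f|² y ^ w` over the strip is `Γ (w + k - 1) / (4 π) ^ (w + k - 1)` times
`∑ |a n|² n ^ -(w + k - 1)`; unfolded it is half the sum of the integrals over the fundamental
domain of `y ^ k |f|² (y / |c z + d|²) ^ w` over the coprime pairs.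
-/

set_option autoImplicit false

noncomputable section

open UpperHalfPlane hiding I
open Complex CongruenceSubgroup MeasureTheory Filter Set
open scoped MatrixGroups Real Topology ModularForm Modular

namespace FA.RankinSelberg

open FA.Poincare (absSq strip stripRect pushRect lift pairs)

variable {k : ℕ}

/-- `|a n|²`. -/
def coeffSq (f : CuspForm (Gamma0 1) (k : ℤ)) (n : ℕ) : ℝ := ‖(qExpansion 1 f).coeff n‖ ^ 2

theorem coeffSq_nonneg (f : CuspForm (Gamma0 1) (k : ℤ)) (n : ℕ) : 0 ≤ coeffSq f n := sq_nonneg _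

theorem coeffSq_zero (f : CuspForm (Gamma0 1) (k : ℤ)) : coeffSq f 0 = 0 := by
  rw [coeffSq, VoronoiSummation.coeff_zero, norm_zero, sq, mul_zero]

/-- The Dirichlet series `∑ |a n|² n ^ (-s)`. -/
def series (f : CuspForm (Gamma0 1) (k : ℤ)) (s : ℂ) : ℂ :=
  LSeries (fun n => (coeffSq f n : ℂ)) s

theorem lSeriesSummable (f : CuspForm (Gamma0 1) (k : ℤ)) {s : ℂ} (hs : (k : ℝ) < s.re) :
    LSeriesSummable (fun n => (coeffSq f n : ℂ)) s := by
  obtain ⟨B, -, hB⟩ := VoronoiSummation.mean_square f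
  refine LSeriesSummable_of_sum_norm_bigO (r := (k : ℝ)) ?_ (by positivity) hs
  refine Asymptotics.IsBigO.of_bound B (Eventually.of_forall fun n => ?_)
  rw [Real.norm_of_nonneg (Finset.sum_nonneg fun _ _ => norm_nonneg _),
    Real.norm_of_nonneg (by positivity)]
  simpa [coeffSq] using hB n

/-- The mean of `|f|²` on a horizontal period. -/
def lineSq (f : CuspForm (Gamma0 1) (k : ℤ)) (y : ℝ) : ℝ :=
  ∫ x in (0 : ℝ)..1, ‖f (ofComplex (x + y * I))‖ ^ 2

theorem lineSq_nonneg (f : CuspForm (Gamma0 1) (k : ℤ)) (y : ℝ) : 0 ≤ lineSq f y :=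
  intervalIntegral.integral_nonneg zero_le_one fun _ _ => sq_nonneg _

theorem hasSum_lineSq (f : CuspForm (Gamma0 1) (k : ℤ)) {y : ℝ} (hy : 0 < y) :
    HasSum (fun n : ℕ => (coeffSq f n : ℂ) * Real.exp (-(4 * π * n) * y)) (lineSq f y : ℂ) := by
  have h := Complex.hasSum_ofReal.2 (CoefficientSize.hasSum_parseval f hy)
  refine h.congr_fun fun n => ?_
  simp only [coeffSq, neg_mul]
  push_cast
  rfl

theorem mellin_lineSq (f : CuspForm (Gamma0 1) (k : ℤ)) {s : ℂ} (hs : (k : ℝ) < s.re) :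
    mellin (fun y => (lineSq f y : ℂ)) s = (4 * π : ℝ) ^ (-s) * Gamma s * series f s := by
  have hs0 : 0 < s.re := lt_of_le_of_lt (Nat.cast_nonneg k) hs
  have hsum : Summable fun n : ℕ => ‖(coeffSq f n : ℂ)‖ / (4 * π * n) ^ s.re := by
    refine (((lSeriesSummable f (s := s) hs).norm).mul_left ((4 * π) ^ (-s.re))).congr fun n => ?_
    rcases eq_or_ne n 0 with rfl | hn
    · simp [coeffSq_zero]
    rw [LSeries.norm_term_eq, if_neg hn, Real.mul_rpow (by positivity) (Nat.cast_nonneg n),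
      Real.rpow_neg (by positivity), ← div_div, inv_mul_eq_div, div_right_comm]
  have h := hasSum_mellin (a := fun n : ℕ => (coeffSq f n : ℂ)) (p := fun n : ℕ => 4 * π * n)
    (F := fun y => (lineSq f y : ℂ)) (fun n => by
      rcases eq_or_ne n 0 with rfl | hn
      · simp [coeffSq_zero]
      · exact Or.inr (by have : (0 : ℝ) < n := Nat.cast_pos.2 (Nat.pos_of_ne_zero hn); positivity))
    hs0 (fun t ht => hasSum_lineSq f ht) hsum
  rw [← h.tsum_eq, series, LSeries, ← tsum_mul_left]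
  refine tsum_congr fun n => ?_
  rcases eq_or_ne n 0 with rfl | hn
  · simp [coeffSq_zero]
  rw [LSeries.term_of_ne_zero hn, ofReal_mul, mul_cpow_ofReal_nonneg (by positivity)
    (Nat.cast_nonneg n), ofReal_natCast, cpow_neg]
  field_simp

theorem absSq_smul (f : CuspForm (Gamma0 1) (k : ℤ)) (g : SL(2, ℤ)) (z : ℍ) :
    absSq f (g • z) = absSq f z := by
  have hg : g ∈ Gamma0 1 := Poincare.mem_Gamma0_iff.2 (one_dvd _)
  have h : petersson k f f (g • z) = petersson k f f z := by
    rw [← petersson_slash_SL, Poincare.slash_of_mem f hg]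
  rw [Poincare.petersson_self, Poincare.petersson_self] at h
  exact_mod_cast h

theorem continuous_absSq (f : CuspForm (Gamma0 1) (k : ℤ)) : Continuous (absSq f) :=
  (Complex.continuous_normSq.comp (ModularFormClass.holo f).continuous).mul
    (continuous_im.zpow₀ _ fun z => .inl z.im_ne_zero)

/-- `y ^ k |f|² y ^ w`. -/
def stripFn (f : CuspForm (Gamma0 1) (k : ℤ)) (w : ℂ) (z : ℍ) : ℂ :=
  absSq f z * (z.im : ℂ) ^ w

theorem stripFn_T_zpow (f : CuspForm (Gamma0 1) (k : ℤ)) (w : ℂ) (n : ℤ) (z : ℍ) :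
    stripFn f w (ModularGroup.T ^ n • z) = stripFn f w z := by
  rw [stripFn, stripFn, absSq_smul, ModularGroup.im_T_zpow_smul]

theorem continuous_stripFn (f : CuspForm (Gamma0 1) (k : ℤ)) (w : ℂ) :
    Continuous (stripFn f w) :=
  (continuous_ofReal.comp (continuous_absSq f)).mul (continuous_iff_continuousAt.2 fun z =>
    (continuousAt_ofReal_cpow_const z.im w (Or.inr z.im_ne_zero)).comp continuous_im.continuousAt)

theorem pushRect_stripFn (f : CuspForm (Gamma0 1) (k : ℤ)) (w : ℂ) (x : ℝ) {y : ℝ} (hy : 0 < y) :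
    pushRect (stripFn f w) (x, y) =
      (y : ℂ) ^ (w + k - 1 - 1) * ((‖f (ofComplex (x + y * I))‖ ^ 2 : ℝ) : ℂ) := by
  have him : (ofComplex ((x : ℂ) + y * I)).im = y := by
    rw [ofComplex_apply_of_im_pos (by simpa using hy)]; simp [UpperHalfPlane.im]
  have hy' : (y : ℂ) ≠ 0 := ofReal_ne_zero.2 hy.ne'
  rw [pushRect, stripFn, absSq]
  simp only [him, Complex.normSq_eq_norm_sq, zpow_natCast, Complex.real_smul]
  rw [show w + k - 1 - 1 = w + (k : ℂ) - (2 : ℕ) by push_cast; ring, cpow_sub _ _ hy',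
    cpow_add _ _ hy', cpow_natCast, cpow_natCast]
  push_cast
  field_simp

theorem setIntegral_period (f : CuspForm (Gamma0 1) (k : ℤ)) (y : ℝ) :
    ∫ x in Ico (-(1 / 2) : ℝ) (1 / 2), ‖f (ofComplex (x + y * I))‖ ^ 2 = lineSq f y := by
  have hper : (1 : ℝ) ∈ (Subgroup.map (Matrix.SpecialLinearGroup.mapGL ℝ)
      (Gamma0 1)).strictPeriods := one_mem_strictPeriods_Gamma0 1
  have hG : Function.Periodic (fun x : ℝ => ‖f (ofComplex (x + y * I))‖ ^ 2) 1 := fun u => by
    simp only
    rw [show ((u + 1 : ℝ) : ℂ) + y * I = (u + y * I) + (1 : ℝ) by push_cast; ring]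
    exact congrArg (fun c : ℂ => ‖c‖ ^ 2) (SlashInvariantFormClass.periodic_comp_ofComplex f hper _)
  rw [integral_Ico_eq_integral_Ioc, ← intervalIntegral.integral_of_le (by norm_num), lineSq]
  convert! hG.intervalIntegral_add_eq (-(1 / 2)) 0 using 2 <;> norm_num

theorem integrableOn_lineSq (f : CuspForm (Gamma0 1) (k : ℤ)) {s : ℝ} (hs : (k : ℝ) < s) :
    IntegrableOn (fun y => y ^ (s - 1) * lineSq f y) (Ioi 0) := by
  by_cases hf : ∀ n, coeffSq f n = 0
  · refine IntegrableOn.congr_fun integrableOn_zero (fun y hy => ?_) measurableSet_Ioi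
    have h := hasSum_lineSq f (y := y) hy
    simp only [hf, ofReal_zero, zero_mul] at h
    have h0 : lineSq f y = 0 := ofReal_eq_zero.1 (h.unique hasSum_zero)
    simp [h0]
  push Not at hf
  obtain ⟨n, hn⟩ := hf
  refine Integrable.of_integral_ne_zero ?_
  have h := mellin_lineSq f (s := (s : ℂ)) (by simpa using hs)
  have e : mellin (fun y => (lineSq f y : ℂ)) s =
      ((∫ y in Ioi (0 : ℝ), y ^ (s - 1) * lineSq f y : ℝ) : ℂ) := by
    rw [mellin, ← integral_complex_ofReal]
    refine setIntegral_congr_fun measurableSet_Ioi fun y hy => ?_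
    rw [smul_eq_mul, show (s : ℂ) - 1 = ((s - 1 : ℝ) : ℂ) by push_cast; ring,
      ← ofReal_cpow (le_of_lt hy), ← ofReal_mul]
  intro h0
  rw [e, h0, ofReal_zero] at h
  have hs0 : 0 < s := lt_of_le_of_lt (Nat.cast_nonneg k) hs
  have hne : series f s ≠ 0 := by
    set g : ℕ → ℝ := fun m => coeffSq f m / (m : ℝ) ^ s
    have hterm : ∀ m, LSeries.term (fun m => (coeffSq f m : ℂ)) (s : ℂ) m = (g m : ℂ) := fun m => by
      rcases eq_or_ne m 0 with rfl | hm
      · simp [g, coeffSq_zero]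
      · simp [g, LSeries.term_of_ne_zero hm, ofReal_cpow (Nat.cast_nonneg m)]
    have hg : Summable g := by
      have := lSeriesSummable f (s := (s : ℂ)) (by simpa using hs)
      rw [LSeriesSummable, funext hterm, Complex.summable_ofReal] at this
      exact this
    rw [series, LSeries, tsum_congr hterm, ← ofReal_tsum, ofReal_ne_zero]
    refine (hg.tsum_pos (fun m => div_nonneg (coeffSq_nonneg f m) (by positivity)) n ?_).ne'
    rcases eq_or_ne n 0 with rfl | hn0
    · exact absurd (coeffSq_zero f) hn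
    · exact div_pos ((coeffSq_nonneg f n).lt_of_ne (Ne.symm hn))
        (Real.rpow_pos_of_pos (Nat.cast_pos.2 (Nat.pos_of_ne_zero hn0)) _)
  refine mul_ne_zero (mul_ne_zero ?_ ?_) hne h.symm
  · rw [cpow_ne_zero_iff]; exact Or.inl (ofReal_ne_zero.2 (by positivity))
  · exact Gamma_ne_zero_of_re_pos (by simpa using hs0)

theorem integrableOn_stripFn (f : CuspForm (Gamma0 1) (k : ℤ)) {w : ℂ} (hw : 1 < w.re) :
    IntegrableOn (stripFn f w) strip := by
  have hc : ContinuousOn (pushRect (stripFn f w)) stripRect := by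
    have h1 : ContinuousOn (fun p : ℝ × ℝ => ofComplex ((p.1 : ℂ) + p.2 * I)) stripRect :=
      fun p hp => ((ofComplex.continuousAt (x := (p.1 : ℂ) + p.2 * I) ⟨⟨_, show
        0 < ((p.1 : ℂ) + p.2 * I).im by simpa using (show (0 : ℝ) < p.2 from hp.2)⟩,
        Set.mem_univ _, rfl⟩).comp (f := fun p : ℝ × ℝ => (p.1 : ℂ) + p.2 * I)
          (by fun_prop)).continuousWithinAt
    exact ((continuousOn_snd.pow 2).inv₀ fun p hp =>
      pow_ne_zero 2 (ne_of_gt (show (0 : ℝ) < p.2 from hp.2))).smul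
        ((continuous_stripFn f w).comp_continuousOn h1)
  have hm : MeasurableSet stripRect := measurableSet_Ico.prod measurableSet_Ioi
  have hms := hc.aestronglyMeasurable (μ := volume) hm
  rw [Poincare.integrableOn_strip_iff, IntegrableOn]
  rw [stripRect, Measure.volume_eq_prod, ← Measure.prod_restrict] at hms ⊢
  rw [integrable_prod_iff' hms]
  have hpt : ∀ y : ℝ, 0 < y → ∀ x, ‖pushRect (stripFn f w) (x, y)‖ =
      y ^ (w.re + k - 1 - 1) * ‖f (ofComplex (x + y * I))‖ ^ 2 := fun y hy x => by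
    rw [pushRect_stripFn f w x hy, norm_mul, norm_cpow_eq_rpow_re_of_pos hy, Complex.norm_real,
      Real.norm_of_nonneg (sq_nonneg _)]
    simp
  refine ⟨(ae_restrict_iff' measurableSet_Ioi).2 (Eventually.of_forall fun y hy => ?_), ?_⟩
  · refine IntegrableOn.congr_fun ?_ (fun x _ => (pushRect_stripFn f w x hy).symm) measurableSet_Ico
    exact (Continuous.integrableOn_Icc (continuous_const.mul (continuous_ofReal.comp
      ((VoronoiSummation.continuous_line f hy).norm.pow 2)))).mono_set Ico_subset_Icc_self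
  · refine IntegrableOn.congr_fun
      (integrableOn_lineSq f (s := w.re + k - 1) (by linarith)) (fun y hy => ?_) measurableSet_Ioi
    rw [setIntegral_congr_fun measurableSet_Ico fun x _ => hpt y hy x, integral_const_mul,
      setIntegral_period]

/-- **The integral over the strip.** -/
theorem setIntegral_stripFn (f : CuspForm (Gamma0 1) (k : ℤ)) {w : ℂ} (hw : 1 < w.re) :
    ∫ z in strip, stripFn f w z =
      (4 * π : ℝ) ^ (-(w + k - 1)) * Gamma (w + k - 1) * series f (w + k - 1) := by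
  rw [Poincare.setIntegral_strip_eq_iterated _ (integrableOn_stripFn f hw),
    ← mellin_lineSq f (by simp; linarith), mellin]
  refine setIntegral_congr_fun measurableSet_Ioi fun y hy => ?_
  rw [setIntegral_congr_fun measurableSet_Ico fun x _ => pushRect_stripFn f w x hy,
    integral_const_mul, smul_eq_mul, integral_complex_ofReal, setIntegral_period]

/-- The summand of the lattice sum, integrated over the fundamental domain. -/
def latticeTerm (f : CuspForm (Gamma0 1) (k : ℤ)) (w : ℂ) (v : ℤ × ℤ) : ℂ :=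
  ∫ z in ModularGroup.fdo, (absSq f z : ℂ) * (((form z v)⁻¹ : ℝ) : ℂ) ^ w

theorem latticeTerm_zero (f : CuspForm (Gamma0 1) (k : ℤ)) {w : ℂ} (hw : w ≠ 0) :
    latticeTerm f w 0 = 0 := by
  simp [latticeTerm, form_zero, zero_cpow hw]

theorem hasSum_coprime (f : CuspForm (Gamma0 1) (k : ℤ)) {w : ℂ} (hw : 1 < w.re) :
    HasSum (fun v : pairs => latticeTerm f w (v.1 0, v.1 1))
      (2 * ∫ z in strip, stripFn f w z) := by
  have h := Poincare.hasSum_unfold (stripFn_T_zpow f w) (integrableOn_stripFn f hw)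
  rw [nsmul_eq_mul, Nat.cast_ofNat] at h
  refine h.congr_fun fun v =>
    setIntegral_congr_fun ModularGroup.isOpen_fdo.measurableSet fun z _ => ?_
  rw [stripFn, absSq_smul, ModularGroup.im_smul_eq_div_normSq, ModularGroup.denom_apply,
    Poincare.lift_row v.2, form, inv_div]

theorem form_smul (z : ℍ) (d : ℕ) (v : ℤ × ℤ) :
    form z ((d : ℤ) * v.1, (d : ℤ) * v.2) = (d : ℝ) ^ 2 * form z v := by
  simp only [form]
  rw [show (((d : ℤ) * v.1 : ℤ) : ℂ) * z + (((d : ℤ) * v.2 : ℤ) : ℂ) =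
    ((d : ℝ) : ℂ) * ((v.1 : ℂ) * z + v.2) by push_cast; ring, map_mul, normSq_ofReal]
  ring

theorem latticeTerm_smul (f : CuspForm (Gamma0 1) (k : ℤ)) (w : ℂ) (d : ℕ) (v : ℤ × ℤ) :
    latticeTerm f w ((d : ℤ) * v.1, (d : ℤ) * v.2) =
      (((((d : ℝ) ^ 2)⁻¹ : ℝ)) : ℂ) ^ w * latticeTerm f w v := by
  rw [latticeTerm, latticeTerm, ← integral_const_mul]
  refine integral_congr_ae (Eventually.of_forall fun z => ?_)
  simp only [form_smul, mul_inv]
  rw [ofReal_mul, mul_cpow_ofReal_nonneg (by positivity) (inv_nonneg.2 (form_nonneg z v)),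
    mul_left_comm]

/-- The point `(n + 1) v` of the lattice. -/
def multiple (p : ℕ × pairs) : ℤ × ℤ :=
  (((p.1 + 1 : ℕ) : ℤ) * p.2.1 0, ((p.1 + 1 : ℕ) : ℤ) * p.2.1 1)

theorem multiple_injective : Function.Injective multiple := by
  rintro ⟨a, v⟩ ⟨b, u⟩ e
  simp only [multiple, Prod.mk.injEq] at e
  have hg : ∀ x : pairs, Int.gcd (x.1 0) (x.1 1) = 1 := fun x => Int.isCoprime_iff_gcd_eq_one.1 x.2
  have h := congrArg₂ Int.gcd e.1 e.2
  rw [Int.gcd_mul_left, Int.gcd_mul_left, hg, hg] at h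
  obtain rfl : a = b := by
    simp at h
    omega
  have hne : ((a + 1 : ℕ) : ℤ) ≠ 0 := by positivity
  refine Prod.ext rfl (Subtype.ext (funext fun i => ?_))
  fin_cases i
  exacts [mul_left_cancel₀ hne e.1, mul_left_cancel₀ hne e.2]

theorem eq_zero_of_notMem_range {v : ℤ × ℤ} (hv : v ∉ Set.range multiple) : v = 0 := by
  obtain ⟨a, b⟩ := v
  by_contra hne
  have hg : 0 < Int.gcd a b := Int.gcd_pos_iff.2 (by
    by_contra! h
    exact hne (Prod.ext h.1 h.2))
  obtain ⟨a', b', hab, ha, hb⟩ := Int.exists_gcd_one hg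
  refine hv ⟨(Int.gcd a b - 1, ⟨![a', b'], Int.isCoprime_iff_gcd_eq_one.2 hab⟩), ?_⟩
  simp only [multiple, Matrix.cons_val_zero, Matrix.cons_val_one]
  rw [Nat.sub_add_cancel hg]
  exact Prod.ext ((mul_comm _ _).trans ha.symm) ((mul_comm _ _).trans hb.symm)

theorem zeta_term (w : ℂ) (n : ℕ) :
    ((((((n + 1 : ℕ) : ℝ)) ^ 2)⁻¹ : ℝ) : ℂ) ^ w = 1 / ((n : ℂ) + 1) ^ (2 * w) := by
  have h : (0 : ℝ) < (n + 1 : ℕ) := by positivity
  have hne : (((n + 1 : ℕ) : ℝ) : ℂ) ≠ 0 := ofReal_ne_zero.2 h.ne'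
  rw [ofReal_inv,
    inv_cpow _ _ (by rw [arg_ofReal_of_nonneg (sq_nonneg _)]; exact Real.pi_ne_zero.symm),
    ofReal_pow, sq, mul_cpow_ofReal_nonneg h.le h.le, ← cpow_add _ _ hne, ← two_mul, one_div]
  push_cast
  rfl

theorem norm_latticeTerm_le (f : CuspForm (Gamma0 1) (k : ℤ)) (w : ℂ) (hw : 0 < w.re)
    (v : ℤ × ℤ) : ‖latticeTerm f w v‖ ≤ ‖latticeTerm f (w.re : ℂ) v‖ := by
  have hval : latticeTerm f (w.re : ℂ) v =
      ((∫ z in ModularGroup.fdo, absSq f z * ((form z v)⁻¹) ^ w.re : ℝ) : ℂ) := by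
    rw [latticeTerm, ← integral_complex_ofReal]
    refine integral_congr_ae (Eventually.of_forall fun z => ?_)
    simp only
    rw [← ofReal_cpow (inv_nonneg.2 (form_nonneg z v)), ← ofReal_mul]
  rw [hval, Complex.norm_real, Real.norm_of_nonneg (setIntegral_nonneg
    ModularGroup.isOpen_fdo.measurableSet
    fun z _ => mul_nonneg (Poincare.absSq_nonneg f z)
      (Real.rpow_nonneg (inv_nonneg.2 (form_nonneg z v)) _))]
  refine (norm_integral_le_integral_norm _).trans_eq
    (integral_congr_ae (Eventually.of_forall fun z => ?_))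
  simp only [norm_mul, Complex.norm_real, Real.norm_of_nonneg (Poincare.absSq_nonneg f z)]
  rw [norm_cpow_eq_rpow_re_of_nonneg (inv_nonneg.2 (form_nonneg z v)) hw.ne']

/-- **The lattice sum.** -/
theorem hasSum_latticeTerm (f : CuspForm (Gamma0 1) (k : ℤ)) {w : ℂ} (hw : 1 < w.re) :
    HasSum (latticeTerm f w) (riemannZeta (2 * w) * (2 * ∫ z in strip, stripFn f w z)) := by
  have hz : Summable fun n : ℕ => ‖1 / ((n : ℂ) + 1) ^ (2 * w)‖ := by
    have h := (summable_one_div_nat_cpow (p := 2 * w)).2 (by simp; linarith) |>.norm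
    simpa using (summable_nat_add_iff 1).2 h
  have hJ : Summable fun v : pairs => ‖latticeTerm f w (v.1 0, v.1 1)‖ :=
    Summable.of_nonneg_of_le (fun _ => norm_nonneg _)
      (fun v => norm_latticeTerm_le f w (by linarith) _)
      (hasSum_coprime f (w := (w.re : ℂ)) (by simpa using hw)).summable.norm
  have h1 : HasSum (fun n : ℕ => 1 / ((n : ℂ) + 1) ^ (2 * w)) (riemannZeta (2 * w)) := by
    rw [zeta_eq_tsum_one_div_nat_add_one_cpow (by simp; linarith)]
    exact hz.of_norm.hasSum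
  refine (multiple_injective.hasSum_iff fun v hv => ?_).1 ?_
  · rw [eq_zero_of_notMem_range hv, latticeTerm_zero f fun e => by rw [e] at hw; norm_num at hw]
  have hs := summable_mul_of_summable_norm (f := fun n : ℕ => 1 / ((n : ℂ) + 1) ^ (2 * w))
    (g := fun v : pairs => latticeTerm f w (v.1 0, v.1 1)) hz hJ
  have h2 := HasSum.mul h1 (hasSum_coprime f hw) hs
  refine h2.congr_fun fun p => ?_
  rw [Function.comp_apply, multiple, latticeTerm_smul f w (p.1 + 1) (p.2.1 0, p.2.1 1), zeta_term]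

end FA.RankinSelberg

end
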