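import Fermat.Agent.RankinSelberg.Pair
import Fermat.Agent.Root.SummaryWienerIkehara

/-!
# The mean square of the coefficients

The completed series has simple poles only at `0` and `1`, so the theorem of Wiener and Ikehara
gives `∑_{n ≤ x} |a n|² ~ 3 (4 π) ^ k ⟨f, f⟩ / (π k!) x ^ k`; polarisation gives the same for two
forms.
-/

set_option autoImplicit false

noncomputable section

open UpperHalfPlane hiding I
open Complex CongruenceSubgroup MeasureTheory Filter Set
open scoped MatrixGroups Real Topology ModularForm Modular Nat ComplexConjugate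

namespace FA.RankinSelberg

variable {k : ℕ}

/-- The factors completing the series. -/
def gammaFactor (k : ℕ) (w : ℂ) : ℂ :=
  (π : ℂ) ^ (-w) * Gamma w * riemannZeta (2 * w) *
    (2 * ((4 * π : ℝ) ^ (-(w + k - 1)) * Gamma (w + k - 1)))

/-- The completed series. -/
def completed (f : CuspForm (Gamma0 1) (k : ℤ)) (w : ℂ) : ℂ :=
  gammaFactor k w * series f (w + k - 1)

theorem completed_eq (f : CuspForm (Gamma0 1) (k : ℤ)) {w : ℂ} (hw : 1 < w.re) :
    completed f w = (pair f).Λ w := by
  rw [pair_lambda f hw, completed, gammaFactor]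
  ring

theorem pair_lambda_eq (f : CuspForm (Gamma0 1) (k : ℤ)) (w : ℂ) :
    (pair f).Λ w = (pair f).Λ₀ w - (mass f : ℂ) / w + (mass f : ℂ) / (w - 1) := by
  simp only [WeakFEPair.Λ, pair, ofReal_one, smul_eq_mul]
  rw [show (1 : ℂ) - w = -(w - 1) by ring, div_neg]
  ring

theorem pair_symm (f : CuspForm (Gamma0 1) (k : ℤ)) : (pair f).symm = pair f := by
  simp [WeakFEPair.symm, pair]

theorem functional_equation (f : CuspForm (Gamma0 1) (k : ℤ)) (w : ℂ) :
    (pair f).Λ (1 - w) = (pair f).Λ w := by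
  have h := (pair f).functional_equation w
  rw [pair_symm] at h
  simpa [pair] using h

theorem entire_functional_equation (f : CuspForm (Gamma0 1) (k : ℤ)) (w : ℂ) :
    (pair f).Λ₀ (1 - w) = (pair f).Λ₀ w := by
  have h := (pair f).functional_equation₀ w
  rw [pair_symm] at h
  simpa [pair] using h

theorem gammaFactor_ne_zero (hk : 1 ≤ k) {w : ℂ} (hw : 3 / 4 < w.re) :
    gammaFactor k w ≠ 0 := by
  have hk' : (1 : ℝ) ≤ k := by exact_mod_cast hk
  refine mul_ne_zero (mul_ne_zero (mul_ne_zero ?_ (Gamma_ne_zero_of_re_pos (by linarith))) ?_)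
    (mul_ne_zero two_ne_zero (mul_ne_zero ?_ (Gamma_ne_zero_of_re_pos (by simp; linarith))))
  · exact cpow_ne_zero_iff.2 (Or.inl (ofReal_ne_zero.2 Real.pi_ne_zero))
  · exact riemannZeta_ne_zero_of_one_le_re (by simp; linarith)
  · exact cpow_ne_zero_iff.2 (Or.inl (ofReal_ne_zero.2 (by positivity)))

theorem differentiableAt_gammaFactor (hk : 1 ≤ k) {w : ℂ} (hw : 3 / 4 < w.re) :
    DifferentiableAt ℂ (gammaFactor k) w := by
  have hk' : (1 : ℝ) ≤ k := by exact_mod_cast hk
  have hne : ∀ z : ℂ, 0 < z.re → ∀ m : ℕ, z ≠ -m := fun z hz m e => by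
    rw [e] at hz
    simp at hz
    linarith
  refine DifferentiableAt.mul (DifferentiableAt.mul (DifferentiableAt.mul ?_
    (differentiableAt_Gamma w (hne w (by linarith)))) ?_) (DifferentiableAt.const_mul
      (DifferentiableAt.mul ?_ ?_) 2)
  · exact (differentiableAt_id.neg).const_cpow (Or.inl (ofReal_ne_zero.2 Real.pi_ne_zero))
  · refine (differentiableAt_riemannZeta fun e => ?_).comp w (differentiableAt_id.const_mul 2)
    have := congrArg Complex.re e
    simp at this
    linarith
  · exact (((differentiableAt_id.add_const (k : ℂ)).sub_const 1).neg).const_cpow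
      (Or.inl (ofReal_ne_zero.2 (by positivity)))
  · exact (differentiableAt_Gamma _ (hne _ (by simp; linarith))).comp w
      ((differentiableAt_id.add_const (k : ℂ)).sub_const 1)

theorem gammaFactor_one (hk : 1 ≤ k) :
    gammaFactor k 1 = ((π / 3 * ((k - 1)! : ℝ) / (4 * π) ^ k : ℝ) : ℂ) := by
  obtain ⟨j, rfl⟩ : ∃ j, k = j + 1 := ⟨k - 1, by omega⟩
  have hπ : (π : ℂ) ≠ 0 := ofReal_ne_zero.2 Real.pi_ne_zero
  rw [gammaFactor, Gamma_one, mul_one, mul_one, riemannZeta_two,
    show (1 : ℂ) + ((j + 1 : ℕ) : ℂ) - 1 = ((j : ℂ) + 1) by push_cast; ring,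
    Complex.Gamma_nat_eq_factorial, cpow_neg, cpow_neg, cpow_one, ← Nat.cast_add_one, cpow_natCast,
    Nat.add_sub_cancel]
  push_cast
  field_simp
  ring

/-- The constant of the mean square. -/
def meanConst (k : ℕ) : ℝ := 3 * (4 * π) ^ k / (π * k !)

theorem summable_coeffSq_mul (f : CuspForm (Gamma0 1) (k : ℤ)) (hk : 1 ≤ k) {σ : ℝ} (hσ : 1 < σ) :
    Summable fun n : ℕ => coeffSq f n * Real.exp (-(σ * ((k : ℝ) * Real.log n))) := by
  have hk' : (1 : ℝ) ≤ k := by exact_mod_cast hk
  refine ((lSeriesSummable f (s := (((k : ℝ) * σ : ℝ) : ℂ)) ?_).norm).congr fun n => ?_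
  · rw [ofReal_re]
    exact lt_mul_of_one_lt_right (by linarith) hσ
  rcases eq_or_ne n 0 with rfl | hn
  · simp [coeffSq_zero]
  rw [LSeries.norm_term_eq, if_neg hn, Complex.norm_real,
    Real.norm_of_nonneg (coeffSq_nonneg f n), ofReal_re,
    Real.rpow_def_of_pos (Nat.cast_pos.2 (Nat.pos_of_ne_zero hn)), div_eq_mul_inv, ← Real.exp_neg]
  ring_nf

theorem tsum_coeffSq_mul (f : CuspForm (Gamma0 1) (k : ℤ)) (s : ℂ) :
    (∑' n : ℕ, (coeffSq f n : ℂ) * cexp (-(s * (((k : ℝ) * Real.log n : ℝ) : ℂ)))) =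
      series f ((k : ℂ) * s) := by
  refine tsum_congr fun n => ?_
  rcases eq_or_ne n 0 with rfl | hn
  · simp [coeffSq_zero]
  rw [LSeries.term_of_ne_zero hn, cpow_def_of_ne_zero (Nat.cast_ne_zero.2 hn), div_eq_mul_inv,
    ← Complex.exp_neg, ← ofReal_natCast (n := n), ← ofReal_log (Nat.cast_nonneg n)]
  push_cast
  ring_nf

/-- **Rankin's asymptotic.** -/
theorem tendsto_mean_square (hk : 1 ≤ k) (f : CuspForm (Gamma0 1) (k : ℤ)) :
    Tendsto (fun x : ℝ => (∑ n ∈ Finset.Icc 1 ⌊x⌋₊, coeffSq f n) / x ^ k) atTop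
      (𝓝 (meanConst k * mass f)) := by
  have hk0 : (k : ℝ) ≠ 0 := by exact_mod_cast (by omega : k ≠ 0)
  have hkC : (k : ℂ) ≠ 0 := by exact_mod_cast (by omega : k ≠ 0)
  set R : ℂ → ℂ := fun w => (gammaFactor k w)⁻¹ with hR
  set U : Set ℂ := {w | 3 / 4 < w.re}
  have hU : IsOpen U := isOpen_lt continuous_const continuous_re
  have hRd : ∀ w ∈ U, DifferentiableAt ℂ R w := fun w hw =>
    (differentiableAt_gammaFactor hk hw).inv (gammaFactor_ne_zero hk hw)
  have hds : ContinuousOn (dslope R 1) U :=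
    (continuousOn_dslope (hU.mem_nhds (by norm_num [U]))).2
      ⟨fun w hw => (hRd w hw).continuousAt.continuousWithinAt, hRd 1 (by norm_num [U])⟩
  set toW : ℂ → ℂ := fun s => (k : ℂ) * (s - 1) + 1 with htoW
  have hmap : MapsTo toW {s : ℂ | 1 ≤ s.re} U := fun s hs => by
    have h1 : 0 ≤ (k : ℝ) * (s.re - 1) := mul_nonneg (Nat.cast_nonneg k) (sub_nonneg.2 hs)
    simp only [toW, U, Set.mem_ofPred_eq, add_re, mul_re, natCast_re, natCast_im, sub_re, one_re,
      zero_mul, sub_zero]
    linarith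
  set P : ℂ := (mass f : ℂ)
  set H : ℂ → ℂ := fun w => (pair f).Λ₀ w * R w - P * R w / w + P * dslope R 1 w with hH
  have hHc : ContinuousOn H U := by
    have hR' : ContinuousOn R U := fun w hw => (hRd w hw).continuousAt.continuousWithinAt
    refine ((((pair f).differentiable_Λ₀.continuous.continuousOn).mul hR').sub
      ((continuousOn_const.mul hR').div continuousOn_id fun w hw e => ?_)).add
      (continuousOn_const.mul hds)
    have hw' : 3 / 4 < w.re := hw
    rw [id_eq] at e
    rw [e] at hw'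
    norm_num at hw'
  have key := FA.Summary.wiener_ikehara_general_dirichlet (ι := ℕ)
    (x := fun n => (k : ℝ) * Real.log n) (w := coeffSq f)
    (fun n => mul_nonneg (Nat.cast_nonneg k) (Real.log_natCast_nonneg n)) (coeffSq_nonneg f)
    (fun σ hσ => summable_coeffSq_mul f hk hσ) (A := meanConst k * mass f) (G := H ∘ toW)
    (hHc.comp (by fun_prop) hmap) ?_
  · refine Tendsto.congr' ?_ (key.comp (Real.tendsto_log_atTop.const_mul_atTop
      (show (0 : ℝ) < k by exact_mod_cast (by omega : 0 < k))))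
    filter_upwards [eventually_ge_atTop (1 : ℝ)] with x hx
    have hx0 : 0 < x := by linarith
    simp only [Function.comp_apply]
    rw [show Real.exp (-((k : ℝ) * Real.log x)) = (x ^ k)⁻¹ by
      rw [Real.exp_neg, ← Real.log_pow, Real.exp_log (by positivity)], ← div_eq_mul_inv,
      tsum_eq_sum (s := Finset.Icc 1 ⌊x⌋₊) fun n hn => ?_]
    · refine congrArg (· / x ^ k) (Finset.sum_congr rfl fun n hn => ?_)
      obtain ⟨h1, h2⟩ := Finset.mem_Icc.1 hn
      rw [if_pos]
      exact mul_le_mul_of_nonneg_left (Real.log_le_log (by exact_mod_cast h1)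
        ((Nat.le_floor_iff hx0.le).1 h2)) (Nat.cast_nonneg k)
    · rcases eq_or_ne n 0 with rfl | h0
      · simp [coeffSq_zero]
      rw [if_neg]
      intro hle
      refine hn (Finset.mem_Icc.2 ⟨by omega, (Nat.le_floor_iff hx0.le).2 ?_⟩)
      exact (Real.log_le_log_iff (by exact_mod_cast Nat.pos_of_ne_zero h0) hx0).1
        (le_of_mul_le_mul_left hle (by exact_mod_cast (by omega : 0 < k)))
  · intro s hs
    rw [tsum_coeffSq_mul, Function.comp_apply]
    set w := toW s with hw
    have hwk : (k : ℂ) * s = w + k - 1 := by simp only [hw, toW]; ring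
    have hwre : 1 < w.re := by
      have : 0 < (k : ℝ) * (s.re - 1) :=
        mul_pos (by exact_mod_cast (by omega : 0 < k)) (by linarith)
      simp only [hw, toW, add_re, mul_re, natCast_re, natCast_im, sub_re, one_re, zero_mul,
        sub_zero]
      linarith
    have hw1 : w - 1 = (k : ℂ) * (s - 1) := by simp [hw, toW]
    have hs1 : s - 1 ≠ 0 := fun e => by
      have := congrArg Complex.re e
      simp at this
      linarith
    have hne : w ≠ 1 := fun e => by rw [e] at hwre; norm_num at hwre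
    have hw0 : w ≠ 0 := fun e => by rw [e] at hwre; norm_num at hwre
    have hser : series f (w + k - 1) = (pair f).Λ w * R w := by
      rw [← completed_eq f hwre, completed, hR, mul_comm (gammaFactor k w), mul_assoc,
        mul_inv_cancel₀ (gammaFactor_ne_zero hk (by linarith)), mul_one]
    have hA : ((meanConst k * mass f : ℝ) : ℂ) = P * R 1 / k := by
      obtain ⟨j, rfl⟩ : ∃ j, k = j + 1 := ⟨k - 1, by omega⟩
      simp only [hR, gammaFactor_one hk, meanConst, Nat.add_sub_cancel, Nat.factorial_succ, P]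
      have hπ : (π : ℂ) ≠ 0 := ofReal_ne_zero.2 Real.pi_ne_zero
      have hj : ((j ! : ℕ) : ℂ) ≠ 0 := Nat.cast_ne_zero.2 (Nat.factorial_ne_zero j)
      have hj1 : ((j : ℂ) + 1) ≠ 0 := by exact_mod_cast Nat.succ_ne_zero j
      push_cast
      field_simp
    rw [hwk, hser, pair_lambda_eq, hA, hH]
    simp only [dslope_of_ne R hne, slope_def_field]
    rw [hw1]
    field_simp
    ring

/-! ## Two forms -/

theorem pairing_self_eq_mass (f : CuspForm (Gamma0 1) (k : ℤ)) :
    Poincare.pairing f f = (mass f : ℂ) := by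
  rw [Poincare.pairing_self]
  simp only [absSq_smul]
  have : Subsingleton (SL(2, ℤ) ⧸ Gamma0 1) :=
    ⟨fun a b => Quotient.inductionOn₂ a b fun g h =>
      QuotientGroup.eq.2 (Poincare.mem_Gamma0_iff.2 (one_dvd _))⟩
  rw [Fintype.sum_subsingleton _ ((1 : SL(2, ℤ)) : SL(2, ℤ) ⧸ Gamma0 1), mass]

theorem coeff_add_smul (f g : CuspForm (Gamma0 1) (k : ℤ)) (c : ℂ) (n : ℕ) :
    (qExpansion 1 ⇑(f + c • g : CuspForm (Gamma0 1) (k : ℤ))).coeff n =
      (qExpansion 1 f).coeff n + c * (qExpansion 1 g).coeff n := by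
  rw [FunLike.coe_add, ModularForm.qExpansion_add one_pos (one_mem_strictPeriods_Gamma0 1) f
    (c • g), FunLike.coe_smul, ModularForm.qExpansion_smul one_pos
      (one_mem_strictPeriods_Gamma0 1) c g]
  simp

theorem mass_add_smul (f g : CuspForm (Gamma0 1) (k : ℤ)) (c : ℂ) :
    (mass (f + c • g) : ℂ) = Poincare.pairing f f + c * Poincare.pairing f g +
      conj c * Poincare.pairing g f + conj c * c * Poincare.pairing g g := by
  have hadd : ∀ u v w : CuspForm (Gamma0 1) (k : ℤ),
      Poincare.pairing u (v + w) = Poincare.pairing u v + Poincare.pairing u w := fun u v w => by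
    rw [← Poincare.pairing_symm, Poincare.pairing_add_left, map_add, Poincare.pairing_symm,
      Poincare.pairing_symm]
  have hsmul : ∀ u v : CuspForm (Gamma0 1) (k : ℤ),
      Poincare.pairing u (c • v) = c * Poincare.pairing u v := fun u v => by
    rw [← Poincare.pairing_symm, Poincare.pairing_smul_left, map_mul, Complex.conj_conj,
      Poincare.pairing_symm]
  rw [← pairing_self_eq_mass, Poincare.pairing_add_left, Poincare.pairing_smul_left, hadd, hadd,
    hsmul, hsmul]
  ring

theorem polarise (a b : ℂ) : conj a * b = ((‖a + b‖ ^ 2 : ℝ) - (‖a + -1 * b‖ ^ 2 : ℝ) -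
    I * (‖a + I * b‖ ^ 2 : ℝ) + I * (‖a + -I * b‖ ^ 2 : ℝ) : ℂ) / 4 := by
  push_cast
  simp only [← Complex.mul_conj', map_add, map_mul, map_neg, conj_I, map_one]
  linear_combination (conj a * b - a * conj b) / 2 * I_sq

/-- **The asymptotic for two forms.** -/
theorem tendsto_pairing (hk : 1 ≤ k) (f g : CuspForm (Gamma0 1) (k : ℤ)) :
    Tendsto (fun x : ℝ => (∑ n ∈ Finset.Icc 1 ⌊x⌋₊,
        conj ((qExpansion 1 f).coeff n) * (qExpansion 1 g).coeff n) / (x : ℂ) ^ k) atTop
      (𝓝 ((meanConst k : ℂ) * Poincare.pairing f g)) := by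
  have T : ∀ c : ℂ, Tendsto (fun x : ℝ => (((∑ n ∈ Finset.Icc 1 ⌊x⌋₊,
      ‖(qExpansion 1 f).coeff n + c * (qExpansion 1 g).coeff n‖ ^ 2) / x ^ k : ℝ) : ℂ)) atTop
      (𝓝 ((meanConst k : ℂ) * (mass (f + c • g) : ℂ))) := fun c => by
    rw [← ofReal_mul]
    refine (continuous_ofReal.tendsto _).comp
      ((tendsto_mean_square hk (f + c • g)).congr fun x => ?_)
    simp only [coeffSq, coeff_add_smul]
  have h := ((((T 1).sub (T (-1))).sub ((T I).const_mul I)).add
    ((T (-I)).const_mul I)).div_const 4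
  convert! h using 1
  · funext x
    push_cast
    rw [← sub_div, ← mul_div_assoc, ← sub_div, ← mul_div_assoc, ← add_div, div_right_comm,
      ← Finset.sum_sub_distrib, Finset.mul_sum, ← Finset.sum_sub_distrib, Finset.mul_sum,
      ← Finset.sum_add_distrib, Finset.sum_div, Finset.sum_div, Finset.sum_div]
    refine Finset.sum_congr rfl fun n _ => ?_
    rw [polarise, one_mul]
    push_cast
    ring
  · simp only [mass_add_smul, map_one, map_neg, conj_I]
    congr 1
    linear_combination ((meanConst k : ℂ) *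
      (Poincare.pairing f g - Poincare.pairing g f)) / 2 * I_sq

end FA.RankinSelberg

end
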