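import Fermat.Agent.RankinSelberg.Strip
import Mathlib.NumberTheory.LSeries.AbstractFuncEq

/-!
# The pair of Rankin and Selberg

`Φ t = ∫ y ^ k |f|² Θ_z t` over the fundamental domain satisfies `Φ (1 / t) = t Φ t` and differs
from `∫ y ^ k |f|²` by less than every power of `1 / t`; its Mellin transform is the completed
Rankin–Selberg series.
-/

set_option autoImplicit false

noncomputable section

open UpperHalfPlane hiding I
open Complex CongruenceSubgroup MeasureTheory Filter Set
open scoped MatrixGroups Real Topology ModularForm Modular Nat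

namespace FA.RankinSelberg

open FA.Poincare (absSq strip)

variable {k : ℕ}

theorem fdo_subset_strip : ModularGroup.fdo ⊆ strip := fun _ hz =>
  ⟨(abs_lt.1 hz.2).1.le, (abs_lt.1 hz.2).2⟩

theorem measurableSet_fdo : MeasurableSet (ModularGroup.fdo : Set ℍ) :=
  ModularGroup.isOpen_fdo.measurableSet

theorem integrableOn_absSq_rpow (f : CuspForm (Gamma0 1) (k : ℤ)) {σ : ℝ} (hσ : 1 < σ) :
    IntegrableOn (fun z => absSq f z * z.im ^ σ) ModularGroup.fdo := by
  refine IntegrableOn.congr_fun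
    ((integrableOn_stripFn f (w := (σ : ℂ)) (by simpa using hσ)).mono_set
      fdo_subset_strip).norm (fun z _ => ?_) measurableSet_fdo
  simp only [stripFn, norm_mul, Complex.norm_real,
    Real.norm_of_nonneg (Poincare.absSq_nonneg f z), norm_cpow_eq_rpow_re_of_pos z.im_pos,
    Complex.ofReal_re]

theorem integrableOn_absSq_pow (f : CuspForm (Gamma0 1) (k : ℤ)) {r : ℕ} (hr : 2 ≤ r) :
    IntegrableOn (fun z => absSq f z * z.im ^ r) ModularGroup.fdo := by
  have h : (1 : ℝ) < r := by exact_mod_cast hr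
  simpa using integrableOn_absSq_rpow f h

theorem integrableOn_absSq (f : CuspForm (Gamma0 1) (k : ℤ)) :
    IntegrableOn (absSq f) ModularGroup.fdo := by
  refine Integrable.mono' ((integrableOn_absSq_pow f le_rfl).const_mul 4)
    (continuous_absSq f).aestronglyMeasurable ((ae_restrict_iff' measurableSet_fdo).2
      (Eventually.of_forall fun z hz => ?_))
  rw [Real.norm_of_nonneg (Poincare.absSq_nonneg f z)]
  have h0 := Poincare.absSq_nonneg f z
  have h1 : (1 / 2 : ℝ) ^ 2 ≤ z.im ^ 2 := pow_le_pow_left₀ (by norm_num) (im_pos_of_fdo hz) 2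
  nlinarith

/-- `⟨f, f⟩` over the fundamental domain. -/
def mass (f : CuspForm (Gamma0 1) (k : ℤ)) : ℝ := ∫ z in ModularGroup.fdo, absSq f z

theorem mass_nonneg (f : CuspForm (Gamma0 1) (k : ℤ)) : 0 ≤ mass f :=
  setIntegral_nonneg measurableSet_fdo fun z _ => Poincare.absSq_nonneg f z

/-- The theta series integrated against `y ^ k |f|²`. -/
def phi (f : CuspForm (Gamma0 1) (k : ℤ)) (t : ℝ) : ℝ :=
  ∫ z in ModularGroup.fdo, absSq f z * theta z t

theorem continuousOn_theta {t : ℝ} (ht : 0 < t) :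
    ContinuousOn (fun z => theta z t) ModularGroup.fdo := by
  intro z₀ hz₀
  set U : Set ℍ := ModularGroup.fdo ∩ {z | z.im < z₀.im + 1}
  have hU : U ∈ 𝓝 z₀ := (ModularGroup.isOpen_fdo.inter
    (isOpen_lt continuous_im continuous_const)).mem_nhds ⟨hz₀, by simp⟩
  refine (ContinuousOn.continuousAt ?_ hU).continuousWithinAt
  refine continuousOn_tsum (fun v => (continuous_thetaTerm t v).continuousOn)
    (u := Function.update (fun v => (2 ! : ℝ) * (2 / π) ^ 2 * ((z₀.im + 1) / t) ^ 2 * majorant v)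
      0 1) ((summable_majorant.mul_left _).update 0 1) fun v z hz => ?_
  rw [Real.norm_of_nonneg (show 0 ≤ thetaTerm z t v from Real.exp_nonneg _)]
  rcases eq_or_ne v 0 with rfl | hv
  · simp [thetaTerm, form_zero]
  rw [Function.update_of_ne hv]
  refine (exp_form_le hz.1 ht hv le_rfl).trans ?_
  have hy := z.im_pos
  have hy' : z.im ≤ z₀.im + 1 := le_of_lt hz.2
  refine mul_le_mul_of_nonneg_right (mul_le_mul_of_nonneg_left ?_ (by positivity))
    (majorant_nonneg v)
  gcongr

theorem aestronglyMeasurable_phi (f : CuspForm (Gamma0 1) (k : ℤ)) {t : ℝ} (ht : 0 < t) :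
    AEStronglyMeasurable (fun z => absSq f z * theta z t) (volume.restrict ModularGroup.fdo) :=
  ((continuous_absSq f).continuousOn.mul (continuousOn_theta ht)).aestronglyMeasurable
    measurableSet_fdo

theorem integrableOn_tail (f : CuspForm (Gamma0 1) (k : ℤ)) {t : ℝ} (ht : 0 < t) :
    IntegrableOn (fun z => absSq f z * (theta z t - 1)) ModularGroup.fdo := by
  refine Integrable.mono' ((integrableOn_absSq_pow f le_rfl).const_mul (tailConst 2 / t ^ 2))
    (((continuous_absSq f).continuousOn.mul ((continuousOn_theta ht).sub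
      continuousOn_const)).aestronglyMeasurable measurableSet_fdo)
    ((ae_restrict_iff' measurableSet_fdo).2 (Eventually.of_forall fun z hz => ?_))
  rw [Real.norm_of_nonneg (mul_nonneg (Poincare.absSq_nonneg f z)
    (sub_nonneg.2 (one_le_theta hz ht)))]
  calc absSq f z * (theta z t - 1) ≤ absSq f z * (tailConst 2 * (z.im / t) ^ 2) :=
        mul_le_mul_of_nonneg_left (theta_sub_one_le hz ht le_rfl) (Poincare.absSq_nonneg f z)
    _ = tailConst 2 / t ^ 2 * (absSq f z * z.im ^ 2) := by rw [div_pow]; ring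

theorem integrableOn_phi (f : CuspForm (Gamma0 1) (k : ℤ)) {t : ℝ} (ht : 0 < t) :
    IntegrableOn (fun z => absSq f z * theta z t) ModularGroup.fdo := by
  refine IntegrableOn.congr_fun ((integrableOn_tail f ht).add (integrableOn_absSq f))
    (fun z _ => ?_) measurableSet_fdo
  simp only [Pi.add_apply]
  ring

theorem phi_sub_mass (f : CuspForm (Gamma0 1) (k : ℤ)) {t : ℝ} (ht : 0 < t) :
    phi f t - mass f = ∫ z in ModularGroup.fdo, absSq f z * (theta z t - 1) := by
  rw [phi, mass, ← integral_sub (integrableOn_phi f ht) (integrableOn_absSq f)]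
  simp only [mul_sub, mul_one]

theorem phi_inv (f : CuspForm (Gamma0 1) (k : ℤ)) {t : ℝ} (ht : 0 < t) :
    phi f (1 / t) = t * phi f t := by
  rw [phi, phi, ← integral_const_mul]
  refine setIntegral_congr_fun measurableSet_fdo fun z hz => ?_
  rw [theta_inv hz ht]
  ring

theorem antitoneOn_phi (f : CuspForm (Gamma0 1) (k : ℤ)) : AntitoneOn (phi f) (Ioi 0) := by
  intro a ha b hb hab
  refine setIntegral_mono_on (integrableOn_phi f hb) (integrableOn_phi f ha) measurableSet_fdo
    fun z hz => mul_le_mul_of_nonneg_left ?_ (Poincare.absSq_nonneg f z)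
  refine Summable.tsum_le_tsum (fun v => Real.exp_le_exp.2 ?_) (summable_thetaTerm hz hb)
    (summable_thetaTerm hz ha)
  have := mul_le_mul_of_nonneg_left hab (mul_nonneg Real.pi_pos.le (form_nonneg z v))
  linarith

theorem phi_sub_mass_le (f : CuspForm (Gamma0 1) (k : ℤ)) {t : ℝ} (ht : 0 < t) {r : ℕ}
    (hr : 2 ≤ r) :
    |phi f t - mass f| ≤
      tailConst r * (∫ z in ModularGroup.fdo, absSq f z * z.im ^ r) * (t ^ r)⁻¹ := by
  rw [phi_sub_mass f ht, abs_of_nonneg (setIntegral_nonneg measurableSet_fdo fun z hz =>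
    mul_nonneg (Poincare.absSq_nonneg f z) (sub_nonneg.2 (one_le_theta hz ht))),
    ← integral_const_mul, ← integral_mul_const]
  refine setIntegral_mono_on (integrableOn_tail f ht)
    (((integrableOn_absSq_pow f hr).const_mul _).mul_const _) measurableSet_fdo fun z hz => ?_
  calc absSq f z * (theta z t - 1) ≤ absSq f z * (tailConst r * (z.im / t) ^ r) :=
        mul_le_mul_of_nonneg_left (theta_sub_one_le hz ht hr) (Poincare.absSq_nonneg f z)
    _ = tailConst r * (absSq f z * z.im ^ r) * (t ^ r)⁻¹ := by rw [div_pow]; ring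

theorem phi_isBigO (f : CuspForm (Gamma0 1) (k : ℤ)) (r : ℝ) :
    (fun t => ((phi f t : ℝ) : ℂ) - (mass f : ℂ)) =O[atTop] fun t : ℝ => t ^ r := by
  set n := max 2 ⌈-r⌉₊ with hn
  set C := tailConst n * ∫ z in ModularGroup.fdo, absSq f z * z.im ^ n
  have hC : 0 ≤ C := mul_nonneg (tailConst_nonneg n) (setIntegral_nonneg measurableSet_fdo
    fun z _ => mul_nonneg (Poincare.absSq_nonneg f z) (pow_nonneg z.im_pos.le n))
  refine Asymptotics.IsBigO.of_bound C ?_
  filter_upwards [eventually_ge_atTop (1 : ℝ)] with t ht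
  have ht0 : 0 < t := zero_lt_one.trans_le ht
  rw [← ofReal_sub, Complex.norm_real, Real.norm_eq_abs, Real.norm_of_nonneg (by positivity)]
  refine (phi_sub_mass_le f ht0 (r := n) (le_max_left _ _)).trans
    (mul_le_mul_of_nonneg_left ?_ hC)
  rw [← Real.rpow_natCast, ← Real.rpow_neg ht0.le]
  refine Real.rpow_le_rpow_of_exponent_le ht ?_
  have : -r ≤ (n : ℝ) := (Nat.le_ceil _).trans (by exact_mod_cast le_max_right 2 ⌈-r⌉₊)
  linarith

theorem locallyIntegrableOn_phi (f : CuspForm (Gamma0 1) (k : ℤ)) :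
    LocallyIntegrableOn (fun t => ((phi f t : ℝ) : ℂ)) (Ioi 0) := by
  refine (locallyIntegrableOn_iff isOpen_Ioi.isLocallyClosed).2 fun K hK hKc => ?_
  exact (((antitoneOn_phi f).mono hK).integrableOn_isCompact hKc).ofReal

/-- **The pair.** -/
def pair (f : CuspForm (Gamma0 1) (k : ℤ)) : WeakFEPair ℂ where
  f t := phi f t
  g t := phi f t
  k := 1
  ε := 1
  f₀ := mass f
  g₀ := mass f
  hf_int := locallyIntegrableOn_phi f
  hg_int := locallyIntegrableOn_phi f
  hk := one_pos
  hε := one_ne_zero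
  h_feq t ht := by rw [phi_inv f ht]; simp
  hf_top r := phi_isBigO f r
  hg_top r := phi_isBigO f r

/-- The terms off the origin. -/
def tailTerm (z : ℍ) (t : ℝ) (v : ℤ × ℤ) : ℝ := if v = 0 then 0 else thetaTerm z t v

theorem tailTerm_nonneg (z : ℍ) (t : ℝ) (v : ℤ × ℤ) : 0 ≤ tailTerm z t v := by
  unfold tailTerm
  split_ifs
  exacts [le_rfl, Real.exp_nonneg _]

theorem hasSum_tailTerm {z : ℍ} (hz : z ∈ ModularGroup.fdo) {t : ℝ} (ht : 0 < t) :
    HasSum (tailTerm z t) (theta z t - 1) := by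
  have := hasSum_ite_sub_hasSum (summable_thetaTerm hz ht).hasSum (0 : ℤ × ℤ)
  show HasSum (fun v => tailTerm z t v) _
  simpa [tailTerm, thetaTerm, form_zero, theta] using this

/-- One term of `Φ`. -/
def termInt (f : CuspForm (Gamma0 1) (k : ℤ)) (v : ℤ × ℤ) (t : ℝ) : ℝ :=
  ∫ z in ModularGroup.fdo, absSq f z * tailTerm z t v

theorem termInt_nonneg (f : CuspForm (Gamma0 1) (k : ℤ)) (v : ℤ × ℤ) (t : ℝ) :
    0 ≤ termInt f v t :=
  setIntegral_nonneg measurableSet_fdo fun z _ =>
    mul_nonneg (Poincare.absSq_nonneg f z) (tailTerm_nonneg z t v)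

theorem hasSum_termInt (f : CuspForm (Gamma0 1) (k : ℤ)) {t : ℝ} (ht : 0 < t) :
    HasSum (fun v => termInt f v t) (phi f t - mass f) := by
  rw [phi_sub_mass f ht]
  refine hasSum_integral_of_dominated_convergence (fun v z => absSq f z * tailTerm z t v)
    (fun v => ?_) (fun v => Eventually.of_forall fun z => ?_)
    ((ae_restrict_iff' measurableSet_fdo).2 (Eventually.of_forall fun z hz =>
      ((hasSum_tailTerm hz ht).mul_left _).summable)) ?_
    ((ae_restrict_iff' measurableSet_fdo).2 (Eventually.of_forall fun z hz =>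
      (hasSum_tailTerm hz ht).mul_left _))
  · unfold tailTerm
    split_ifs
    · simp only [mul_zero]; exact aestronglyMeasurable_const
    · exact ((continuous_absSq f).mul (continuous_thetaTerm t v)).aestronglyMeasurable
  · rw [Real.norm_of_nonneg (mul_nonneg (Poincare.absSq_nonneg f z) (tailTerm_nonneg z t v))]
  · exact IntegrableOn.congr_fun (integrableOn_tail f ht)
      (fun z hz => ((hasSum_tailTerm hz ht).mul_left _).tsum_eq.symm) measurableSet_fdo

theorem mellinTerm_point {w : ℂ} (hw : 0 < w.re) {z : ℍ} (hz : z ∈ ModularGroup.fdo)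
    {v : ℤ × ℤ} (hv : v ≠ 0) :
    (∫ t in Ioi (0 : ℝ), (t : ℂ) ^ (w - 1) * (tailTerm z t v : ℂ)) =
      (π : ℂ) ^ (-w) * Gamma w * (((form z v)⁻¹ : ℝ) : ℂ) ^ w := by
  have hQ := form_pos hz hv
  have hr : 0 < π * form z v := mul_pos Real.pi_pos hQ
  simp only [tailTerm, if_neg hv, thetaTerm]
  rw [setIntegral_congr_fun measurableSet_Ioi (g := fun t : ℝ =>
      (t : ℂ) ^ (w - 1) * cexp (-(((π * form z v : ℝ) : ℂ) * t))) (fun t _ => by
        push_cast; ring_nf), integral_cpow_mul_exp_neg_mul_Ioi hw hr,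
    one_div, ← ofReal_inv, mul_inv, ofReal_mul,
    mul_cpow_ofReal_nonneg (inv_nonneg.2 Real.pi_pos.le) (inv_nonneg.2 hQ.le),
    ofReal_inv π, inv_cpow _ _ (by
      rw [arg_ofReal_of_nonneg Real.pi_pos.le]; exact Real.pi_ne_zero.symm), ← cpow_neg]
  ring

theorem integrableOn_mellinTerm {w : ℂ} (hw : 0 < w.re) {z : ℍ} (hz : z ∈ ModularGroup.fdo)
    {v : ℤ × ℤ} (hv : v ≠ 0) :
    IntegrableOn (fun t : ℝ => (t : ℂ) ^ (w - 1) * (tailTerm z t v : ℂ)) (Ioi 0) := by
  refine Integrable.of_integral_ne_zero ?_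
  rw [mellinTerm_point hw hz hv]
  refine mul_ne_zero (mul_ne_zero ?_ (Gamma_ne_zero_of_re_pos hw)) ?_
  · exact cpow_ne_zero_iff.2 (Or.inl (ofReal_ne_zero.2 Real.pi_ne_zero))
  · exact cpow_ne_zero_iff.2 (Or.inl (ofReal_ne_zero.2 (inv_ne_zero (form_pos hz hv).ne')))

theorem norm_mellinTerm (w : ℂ) (z : ℍ) (v : ℤ × ℤ) {t : ℝ} (ht : 0 < t) :
    ‖(t : ℂ) ^ (w - 1) * (tailTerm z t v : ℂ)‖ = t ^ (w.re - 1) * tailTerm z t v := by
  simp [norm_cpow_eq_rpow_re_of_pos ht, abs_of_nonneg (tailTerm_nonneg z t v)]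

theorem mellinTerm_point_real {σ : ℝ} (hσ : 0 < σ) {z : ℍ} (hz : z ∈ ModularGroup.fdo)
    {v : ℤ × ℤ} (hv : v ≠ 0) :
    (∫ t in Ioi (0 : ℝ), t ^ (σ - 1) * tailTerm z t v) =
      π ^ (-σ) * Real.Gamma σ * ((form z v)⁻¹) ^ σ := by
  have h := mellinTerm_point (w := (σ : ℂ)) (by simpa using hσ) hz hv
  rw [setIntegral_congr_fun measurableSet_Ioi (g := fun t : ℝ =>
      (((t ^ (σ - 1) * tailTerm z t v : ℝ)) : ℂ)) (fun t ht => by
        simp [ofReal_cpow (le_of_lt ht)]), integral_complex_ofReal,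
    ← ofReal_cpow (inv_nonneg.2 (form_nonneg z v)), Complex.Gamma_ofReal, ← ofReal_neg,
    ← ofReal_cpow Real.pi_pos.le] at h
  exact_mod_cast h

/-- The joint integrability behind the exchange. -/
theorem integrable_prod_term (f : CuspForm (Gamma0 1) (k : ℤ)) {w : ℂ} (hw : 1 < w.re)
    {v : ℤ × ℤ} (hv : v ≠ 0) :
    Integrable (fun p : ℝ × ℍ => (p.1 : ℂ) ^ (w - 1) * ((absSq f p.2 * tailTerm p.2 p.1 v : ℝ) : ℂ))
      ((volume.restrict (Ioi 0)).prod (volume.restrict ModularGroup.fdo)) := by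
  have hc : ContinuousOn
      (fun p : ℝ × ℍ => (p.1 : ℂ) ^ (w - 1) * ((absSq f p.2 * tailTerm p.2 p.1 v : ℝ) : ℂ))
      (Ioi 0 ×ˢ ModularGroup.fdo) := by
    simp only [tailTerm, if_neg hv, thetaTerm]
    have h1 : ContinuousOn (fun p : ℝ × ℍ => (p.1 : ℂ) ^ (w - 1))
        (Ioi 0 ×ˢ ModularGroup.fdo) := fun p hp =>
      ((continuousAt_ofReal_cpow_const p.1 (w - 1) (Or.inr (ne_of_gt hp.1))).comp
        continuousAt_fst).continuousWithinAt
    exact h1.mul (continuous_ofReal.comp (((continuous_absSq f).comp continuous_snd).mul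
      (Real.continuous_exp.comp ((continuous_const.mul ((continuous_form v).comp
        continuous_snd)).mul continuous_fst)))).continuousOn
  have hm := hc.aestronglyMeasurable (μ := (volume : Measure ℝ).prod (volume : Measure ℍ))
    (measurableSet_Ioi.prod measurableSet_fdo)
  rw [← Measure.prod_restrict] at hm
  rw [integrable_prod_iff' hm]
  refine ⟨(ae_restrict_iff' measurableSet_fdo).2 (Eventually.of_forall fun z hz => ?_), ?_⟩
  · refine ((integrableOn_mellinTerm (w := w) (by linarith) hz hv).const_mul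
      (absSq f z : ℂ)).congr (Eventually.of_forall fun t => ?_)
    simp only [ofReal_mul]
    ring
  · have hσ : 0 < w.re := by linarith
    refine Integrable.mono' (((integrableOn_absSq_rpow f hw).const_mul
      (π ^ (-w.re) * Real.Gamma w.re * 2 ^ w.re)))
      hm.norm.prod_swap.integral_prod_right' ((ae_restrict_iff' measurableSet_fdo).2
        (Eventually.of_forall fun z hz => ?_))
    have e : (∫ t in Ioi (0 : ℝ),
        ‖(t : ℂ) ^ (w - 1) * ((absSq f z * tailTerm z t v : ℝ) : ℂ)‖) =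
        absSq f z * (π ^ (-w.re) * Real.Gamma w.re * ((form z v)⁻¹) ^ w.re) := by
      rw [← mellinTerm_point_real hσ hz hv, ← integral_const_mul]
      refine setIntegral_congr_fun measurableSet_Ioi fun t ht => ?_
      rw [← norm_mellinTerm w z v ht, ofReal_mul, mul_left_comm, norm_mul, Complex.norm_real,
        Real.norm_of_nonneg (Poincare.absSq_nonneg f z)]
    simp only
    rw [e, Real.norm_of_nonneg (by
      have := Poincare.absSq_nonneg f z
      have := Real.Gamma_pos_of_pos hσ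
      have := form_nonneg z v
      positivity)]
    have hle : (form z v)⁻¹ ^ w.re ≤ 2 ^ w.re * z.im ^ w.re := by
      rw [← Real.mul_rpow two_pos.le z.im_pos.le]
      refine Real.rpow_le_rpow (inv_nonneg.2 (form_nonneg z v)) ?_ hσ.le
      have h1 := sqLen_le_form hz v
      have h2 := one_le_sqLen hv
      have hy := z.im_pos
      rw [inv_le_iff_one_le_mul₀ (form_pos hz hv)]
      rw [div_le_iff₀ (by positivity)] at h1
      linarith
    calc absSq f z * (π ^ (-w.re) * Real.Gamma w.re * (form z v)⁻¹ ^ w.re)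
        ≤ absSq f z * (π ^ (-w.re) * Real.Gamma w.re * (2 ^ w.re * z.im ^ w.re)) := by
          have := Poincare.absSq_nonneg f z
          have := Real.Gamma_pos_of_pos hσ
          gcongr
      _ = _ := by ring

theorem integral_termInt (f : CuspForm (Gamma0 1) (k : ℤ)) {w : ℂ} (hw : 1 < w.re) (v : ℤ × ℤ) :
    IntegrableOn (fun t : ℝ => (t : ℂ) ^ (w - 1) * (termInt f v t : ℂ)) (Ioi 0) ∧
      (∫ t in Ioi (0 : ℝ), (t : ℂ) ^ (w - 1) * (termInt f v t : ℂ)) =
        (π : ℂ) ^ (-w) * Gamma w * latticeTerm f w v := by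
  rcases eq_or_ne v 0 with rfl | hv
  · have h0 : ∀ t, termInt f 0 t = 0 := fun t => by simp [termInt, tailTerm]
    have hw0 : w ≠ 0 := fun e => by rw [e] at hw; norm_num at hw
    simp [h0, latticeTerm_zero f hw0]
  have h := integrable_prod_term f hw hv
  have e : ∀ t : ℝ, (∫ z in ModularGroup.fdo,
      (t : ℂ) ^ (w - 1) * ((absSq f z * tailTerm z t v : ℝ) : ℂ)) =
      (t : ℂ) ^ (w - 1) * (termInt f v t : ℂ) := fun t => by
    rw [integral_const_mul, integral_complex_ofReal, termInt]
  refine ⟨h.integral_prod_left.congr (Eventually.of_forall e), ?_⟩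
  rw [← setIntegral_congr_fun measurableSet_Ioi fun t _ => e t, integral_integral_swap h,
    latticeTerm, ← integral_const_mul]
  refine setIntegral_congr_fun measurableSet_fdo fun z hz => ?_
  rw [mul_left_comm, ← mellinTerm_point (by linarith) hz hv, ← integral_const_mul]
  refine integral_congr_ae (Eventually.of_forall fun t => ?_)
  simp only [ofReal_mul]
  ring

/-- **The Mellin transform of the pair.** -/
theorem pair_lambda (f : CuspForm (Gamma0 1) (k : ℤ)) {w : ℂ} (hw : 1 < w.re) :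
    (pair f).Λ w = (π : ℂ) ^ (-w) * Gamma w * riemannZeta (2 * w) *
      (2 * ((4 * π : ℝ) ^ (-(w + k - 1)) * Gamma (w + k - 1) * series f (w + k - 1))) := by
  have hσ : 1 < (w.re : ℂ).re := by simpa using hw
  have hnorm : ∀ v, (∫ t in Ioi (0 : ℝ), ‖(t : ℂ) ^ (w - 1) * (termInt f v t : ℂ)‖) =
      ‖(π : ℂ) ^ (-(w.re : ℂ)) * Gamma (w.re : ℂ) * latticeTerm f (w.re : ℂ) v‖ := fun v => by
    rw [← (integral_termInt f hσ v).2]
    have e : ∀ t ∈ Ioi (0 : ℝ), (t : ℂ) ^ ((w.re : ℂ) - 1) * (termInt f v t : ℂ) =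
        ((t ^ (w.re - 1) * termInt f v t : ℝ) : ℂ) := fun t ht => by
      rw [ofReal_mul, ofReal_cpow (le_of_lt ht)]; simp
    rw [setIntegral_congr_fun measurableSet_Ioi e, integral_complex_ofReal, Complex.norm_real,
      Real.norm_of_nonneg (setIntegral_nonneg measurableSet_Ioi fun t ht =>
        mul_nonneg (Real.rpow_nonneg (le_of_lt ht) _) (termInt_nonneg f v t))]
    refine setIntegral_congr_fun measurableSet_Ioi fun t ht => ?_
    simp [norm_cpow_eq_rpow_re_of_pos ht, abs_of_nonneg (termInt_nonneg f v t)]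
  have hsum : Summable fun v => ∫ t in Ioi (0 : ℝ), ‖(t : ℂ) ^ (w - 1) * (termInt f v t : ℂ)‖ := by
    simp only [hnorm, norm_mul (_ * _)]
    exact ((hasSum_latticeTerm f hσ).summable.norm).mul_left _
  have h := hasSum_integral_of_summable_integral_norm (fun v => (integral_termInt f hw v).1) hsum
  have hmel : (∫ t in Ioi (0 : ℝ), ∑' v, (t : ℂ) ^ (w - 1) * (termInt f v t : ℂ)) =
      (pair f).Λ w := by
    rw [← ((pair f).hasMellin (s := w) (by simpa [pair] using hw)).2, mellin]
    refine setIntegral_congr_fun measurableSet_Ioi fun t ht => ?_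
    simp only [pair, smul_eq_mul]
    rw [← ofReal_sub, ← (hasSum_termInt f ht).tsum_eq, ofReal_tsum, ← tsum_mul_left]
  rw [hmel] at h
  simp only [(integral_termInt f hw _).2] at h
  rw [h.unique ((hasSum_latticeTerm f hw).mul_left _), setIntegral_stripFn f hw]
  ring

end FA.RankinSelberg

end
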