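import Mathlib

/-!
# The theta series of the lattice of a point

For `z = x + i y` in the standard fundamental domain the form `|m z + n|² / y` dominates
`(m² + n²) / 2 y`, and Poisson summation in `n` shows that its theta series `Θ` satisfies
`Θ (1 / t) = t Θ t`.
-/

set_option autoImplicit false

noncomputable section

open UpperHalfPlane hiding I
open Complex Set Filter
open scoped Real Topology Nat Modular

namespace FA.RankinSelberg

/-- `|m z + n|² / y`. -/
def form (z : ℍ) (v : ℤ × ℤ) : ℝ := Complex.normSq ((v.1 : ℂ) * z + v.2) / z.im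

theorem form_eq (z : ℍ) (m n : ℤ) :
    form z (m, n) = (((n : ℝ) + m * z.re) ^ 2 + (m * z.im) ^ 2) / z.im := by
  simp [form, Complex.normSq_apply]
  ring

/-- `m² + n²`. -/
def sqLen (v : ℤ × ℤ) : ℝ := (v.1 : ℝ) ^ 2 + (v.2 : ℝ) ^ 2

theorem one_le_sqLen {v : ℤ × ℤ} (hv : v ≠ 0) : 1 ≤ sqLen v := by
  have h : (1 : ℤ) ≤ v.1 ^ 2 + v.2 ^ 2 := by
    have : v.1 ≠ 0 ∨ v.2 ≠ 0 := by
      by_contra! h
      exact hv (Prod.ext h.1 h.2)
    rcases this with h | h <;> nlinarith [mul_self_pos.2 h, sq_nonneg v.1, sq_nonneg v.2]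
  rw [sqLen]
  exact_mod_cast h

theorem im_pos_of_fdo {z : ℍ} (hz : z ∈ ModularGroup.fdo) : 1 / 2 ≤ z.im := by
  obtain ⟨h1, h2⟩ := hz
  rw [Complex.normSq_apply] at h1
  simp only [UpperHalfPlane.coe_re, UpperHalfPlane.coe_im] at h1
  nlinarith [z.im_pos, abs_lt.1 h2]

/-- The form dominates the sum of squares. -/
theorem sqLen_le_form {z : ℍ} (hz : z ∈ ModularGroup.fdo) (v : ℤ × ℤ) :
    sqLen v / (2 * z.im) ≤ form z v := by
  obtain ⟨h1, h2⟩ := hz
  rw [Complex.normSq_apply] at h1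
  simp only [UpperHalfPlane.coe_re, UpperHalfPlane.coe_im] at h1
  obtain ⟨m, n⟩ := v
  rw [form_eq, div_le_div_iff₀ (by linarith [z.im_pos]) z.im_pos, sqLen]
  simp only
  have h3 : -(|(m : ℝ)| * |(n : ℝ)|) ≤ 2 * z.re * ((m : ℝ) * n) := by
    have : |2 * z.re * ((m : ℝ) * n)| ≤ |(m : ℝ)| * |(n : ℝ)| := by
      rw [abs_mul, abs_mul, abs_mul, abs_two]
      exact mul_le_of_le_one_left (by positivity) (by linarith)
    linarith [neg_abs_le (2 * z.re * ((m : ℝ) * n))]
  have h4 : (m : ℝ) ^ 2 ≤ (m : ℝ) ^ 2 * (z.re ^ 2 + z.im ^ 2) :=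
    le_mul_of_one_le_right (sq_nonneg _) (by nlinarith)
  have h5 := two_mul_le_add_sq |(m : ℝ)| |(n : ℝ)|
  rw [sq_abs, sq_abs] at h5
  have hy := z.im_pos
  nlinarith

theorem form_nonneg (z : ℍ) (v : ℤ × ℤ) : 0 ≤ form z v :=
  div_nonneg (Complex.normSq_nonneg _) z.im_pos.le

theorem form_zero (z : ℍ) : form z 0 = 0 := by simp [form]

theorem form_pos {z : ℍ} (hz : z ∈ ModularGroup.fdo) {v : ℤ × ℤ} (hv : v ≠ 0) : 0 < form z v :=
  lt_of_lt_of_le (div_pos (by linarith [one_le_sqLen hv]) (by linarith [z.im_pos]))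
    (sqLen_le_form hz v)

theorem continuous_form (v : ℤ × ℤ) : Continuous fun z : ℍ => form z v :=
  ((Complex.continuous_normSq.comp
    ((continuous_const.mul continuous_coe).add continuous_const)).div continuous_im
      fun z => z.im_ne_zero)

/-- A summable majorant of `(m² + n²) ^ (-r)`, `r ≥ 2`. -/
def majorant (v : ℤ × ℤ) : ℝ := 4 * ((1 + (v.1 : ℝ) ^ 2)⁻¹ * (1 + (v.2 : ℝ) ^ 2)⁻¹)

theorem majorant_nonneg (v : ℤ × ℤ) : 0 ≤ majorant v := by unfold majorant; positivity

theorem summable_majorant : Summable majorant := by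
  have h1 : Summable fun m : ℤ => (1 + (m : ℝ) ^ 2)⁻¹ := by
    refine Summable.of_norm_bounded_eventually
      (Real.summable_one_div_int_pow.2 one_lt_two) ?_
    filter_upwards [eventually_cofinite_ne (0 : ℤ)] with m hm
    rw [Real.norm_of_nonneg (by positivity), one_div]
    exact inv_anti₀ (by positivity) (by linarith)
  exact (Summable.mul_of_nonneg h1 h1 (fun _ => by positivity) fun _ => by positivity).mul_left 4

theorem inv_sqLen_pow_le {v : ℤ × ℤ} (hv : v ≠ 0) {r : ℕ} (hr : 2 ≤ r) :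
    (sqLen v ^ r)⁻¹ ≤ majorant v := by
  have h1 := one_le_sqLen hv
  refine (inv_anti₀ (by positivity) (pow_le_pow_right₀ h1 hr)).trans ?_
  rw [majorant, ← mul_inv, ← div_eq_mul_inv, inv_le_comm₀ (by positivity) (by positivity), inv_div,
    div_le_iff₀ four_pos, sqLen]
  simp only [sqLen] at h1
  nlinarith [sq_nonneg (v.1 : ℝ), sq_nonneg (v.2 : ℝ)]

/-- `exp (-π t |v|² / 2 y)` decays faster than every power. -/
theorem exp_form_le {z : ℍ} (hz : z ∈ ModularGroup.fdo) {t : ℝ} (ht : 0 < t) {v : ℤ × ℤ}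
    (hv : v ≠ 0) {r : ℕ} (hr : 2 ≤ r) :
    Real.exp (-π * form z v * t) ≤ r ! * (2 / π) ^ r * (z.im / t) ^ r * majorant v := by
  have h1 := one_le_sqLen hv
  have hy := z.im_pos
  set X := π * t * sqLen v / (2 * z.im) with hX
  have hX0 : 0 < X := by positivity
  have hle : X ≤ π * form z v * t := by
    have h := mul_le_mul_of_nonneg_left (sqLen_le_form hz v) (by positivity : (0 : ℝ) ≤ π * t)
    calc X = π * t * (sqLen v / (2 * z.im)) := by rw [hX]; ring
      _ ≤ π * t * form z v := h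
      _ = π * form z v * t := by ring
  calc Real.exp (-π * form z v * t) ≤ Real.exp (-X) := Real.exp_le_exp.2 (by linarith)
    _ ≤ r ! / X ^ r := by
      rw [Real.exp_neg, ← inv_div]
      exact inv_anti₀ (by positivity) (Real.pow_div_factorial_le_exp _ hX0.le r)
    _ = r ! * (2 / π) ^ r * (z.im / t) ^ r * (sqLen v ^ r)⁻¹ := by
      rw [hX]
      simp only [div_pow, mul_pow]
      field_simp
    _ ≤ _ := mul_le_mul_of_nonneg_left (inv_sqLen_pow_le hv hr) (by positivity)

/-- The term of the theta series. -/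
def thetaTerm (z : ℍ) (t : ℝ) (v : ℤ × ℤ) : ℝ := Real.exp (-π * form z v * t)

/-- The constant in the bounds of the tail. -/
def tailConst (r : ℕ) : ℝ := r ! * (2 / π) ^ r * ∑' v, majorant v

theorem tailConst_nonneg (r : ℕ) : 0 ≤ tailConst r :=
  mul_nonneg (by positivity) (tsum_nonneg majorant_nonneg)

theorem summable_thetaTerm {z : ℍ} (hz : z ∈ ModularGroup.fdo) {t : ℝ} (ht : 0 < t) :
    Summable (thetaTerm z t) := by
  refine Summable.of_norm_bounded_eventually (summable_majorant.mul_left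
    ((2 ! : ℝ) * (2 / π) ^ 2 * (z.im / t) ^ 2)) ?_
  filter_upwards [eventually_cofinite_ne (0 : ℤ × ℤ)] with v hv
  rw [thetaTerm, Real.norm_of_nonneg (Real.exp_nonneg _)]
  exact exp_form_le hz ht hv le_rfl

/-- The theta series. -/
def theta (z : ℍ) (t : ℝ) : ℝ := ∑' v, thetaTerm z t v

theorem one_le_theta {z : ℍ} (hz : z ∈ ModularGroup.fdo) {t : ℝ} (ht : 0 < t) :
    1 ≤ theta z t := by
  have := (summable_thetaTerm hz ht).le_tsum 0 fun v _ => (Real.exp_nonneg _)
  simpa [thetaTerm, form_zero, theta] using this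

theorem theta_sub_one_le {z : ℍ} (hz : z ∈ ModularGroup.fdo) {t : ℝ} (ht : 0 < t) {r : ℕ}
    (hr : 2 ≤ r) : theta z t - 1 ≤ tailConst r * (z.im / t) ^ r := by
  have h := (summable_thetaTerm hz ht).tsum_eq_add_tsum_ite 0
  rw [theta, h, show thetaTerm z t 0 = 1 by simp [thetaTerm, form_zero], add_sub_cancel_left,
    tailConst, mul_right_comm, ← tsum_mul_left]
  refine Summable.tsum_le_tsum (fun v => ?_) (summable_of_isBigO (summable_thetaTerm hz ht) ?_)
    (summable_majorant.mul_left _)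
  · split_ifs with hv
    · exact mul_nonneg (by have := z.im_pos; positivity) (majorant_nonneg v)
    · exact exp_form_le hz ht hv hr
  · refine Asymptotics.isBigO_of_le _ fun v => ?_
    split_ifs with hv <;> simp [thetaTerm, Real.exp_nonneg]

/-- The symmetrical term after Poisson summation. -/
def dualTerm (z : ℍ) (t : ℝ) (v : ℤ × ℤ) : ℂ :=
  cexp (-π * z.im * (t * v.1 ^ 2 + v.2 ^ 2 / t) - 2 * π * I * z.re * v.1 * v.2)

theorem summable_gauss {a : ℝ} (ha : 0 < a) : Summable fun n : ℤ => Real.exp (-π * a * n ^ 2) := by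
  refine Summable.of_norm_bounded_eventually
    ((Real.summable_one_div_int_pow.2 one_lt_two).mul_left (π * a)⁻¹) ?_
  filter_upwards [eventually_cofinite_ne (0 : ℤ)] with n hn
  have hn2 : 0 < (n : ℝ) ^ 2 := by positivity
  rw [Real.norm_of_nonneg (Real.exp_nonneg _), one_div, ← mul_inv,
    show -π * a * (n : ℝ) ^ 2 = -(π * a * (n : ℝ) ^ 2) by ring, Real.exp_neg]
  exact inv_anti₀ (by positivity) ((le_add_of_nonneg_right zero_le_one).trans
    (Real.add_one_le_exp _))

theorem summable_dualTerm (z : ℍ) {t : ℝ} (ht : 0 < t) : Summable (dualTerm z t) := by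
  have hy := z.im_pos
  refine Summable.of_norm_bounded (Summable.mul_of_nonneg
    (summable_gauss (a := z.im * t) (by positivity))
    (summable_gauss (a := z.im / t) (by positivity)) (fun _ => Real.exp_nonneg _)
    fun _ => Real.exp_nonneg _) fun v => le_of_eq ?_
  rw [dualTerm, Complex.norm_exp, ← Real.exp_add]
  congr 1
  simp [sq, Complex.div_ofReal_re]
  ring

/-- Poisson summation in `n`. -/
theorem tsum_thetaTerm_row (z : ℍ) {t : ℝ} (ht : 0 < t) (m : ℤ) :
    (∑' n, (thetaTerm z t (m, n) : ℂ)) =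
      (Real.sqrt (z.im / t) : ℂ) * ∑' j, dualTerm z t (m, j) := by
  have hy := z.im_pos
  set a : ℝ := z.im / t with ha
  have ha0 : 0 < a := by positivity
  have h := Complex.tsum_exp_neg_quadratic (a := (a : ℂ)) (by simpa using ha0) (-I * (m * z.re))
  have e1 : ∀ j : ℤ, dualTerm z t (m, j) = cexp (-π * z.im * t * m ^ 2) *
      cexp (-π * (a : ℂ) * j ^ 2 + 2 * π * (-I * (m * z.re)) * j) := fun j => by
    rw [dualTerm, ← Complex.exp_add, ha]
    congr 1
    push_cast
    ring
  have e2 : ∀ n : ℤ, (thetaTerm z t (m, n) : ℂ) = cexp (-π * z.im * t * m ^ 2) *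
      cexp (-π / (a : ℂ) * (n + I * (-I * (m * z.re))) ^ 2) := fun n => by
    rw [thetaTerm, form_eq, ← Complex.exp_add, ofReal_exp, ha]
    congr 1
    have : (I : ℂ) * -I = 1 := by simp
    rw [← mul_assoc I, this, one_mul]
    have hy' : (z.im : ℂ) ≠ 0 := ofReal_ne_zero.2 hy.ne'
    push_cast
    field_simp
    ring
  simp only [e1, e2, tsum_mul_left, h]
  rw [Real.sqrt_eq_rpow, ofReal_cpow ha0.le, show ((1 / 2 : ℝ) : ℂ) = 1 / 2 by push_cast; ring]
  have hne : (a : ℂ) ^ (1 / 2 : ℂ) ≠ 0 := by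
    simp [cpow_eq_zero_iff, ha0.ne']
  field_simp

theorem theta_eq_dual {z : ℍ} (hz : z ∈ ModularGroup.fdo) {t : ℝ} (ht : 0 < t) :
    (theta z t : ℂ) = (Real.sqrt (z.im / t) : ℂ) * ∑' v, dualTerm z t v := by
  have h1 : Summable fun v => (thetaTerm z t v : ℂ) :=
    Complex.summable_ofReal.2 (summable_thetaTerm hz ht)
  rw [theta, Complex.ofReal_tsum, h1.tsum_prod, (summable_dualTerm z ht).tsum_prod, ← tsum_mul_left]
  exact tsum_congr fun m => tsum_thetaTerm_row z ht m

/-- **The functional equation of the theta series.** -/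
theorem theta_inv {z : ℍ} (hz : z ∈ ModularGroup.fdo) {t : ℝ} (ht : 0 < t) :
    theta z (1 / t) = t * theta z t := by
  have hy := z.im_pos
  have h1 := theta_eq_dual hz ht
  have h2 := theta_eq_dual hz (one_div_pos.2 ht)
  have e : ∑' v, dualTerm z (1 / t) v = ∑' v, dualTerm z t v := by
    rw [← (Equiv.prodComm ℤ ℤ).tsum_eq]
    refine tsum_congr fun v => ?_
    simp only [dualTerm, Equiv.prodComm_apply, Prod.fst_swap, Prod.snd_swap]
    congr 1
    push_cast
    field_simp
    ring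
  rw [e] at h2
  have hs : Real.sqrt (z.im / (1 / t)) = t * Real.sqrt (z.im / t) := by
    rw [show z.im / (1 / t) = t ^ 2 * (z.im / t) by field_simp,
      Real.sqrt_mul (sq_nonneg _), Real.sqrt_sq ht.le]
  rw [hs] at h2
  push_cast at h2
  rw [mul_assoc, ← h1] at h2
  exact_mod_cast h2

theorem continuous_thetaTerm (t : ℝ) (v : ℤ × ℤ) : Continuous fun z : ℍ => thetaTerm z t v :=
  Real.continuous_exp.comp ((continuous_const.mul (continuous_form v)).mul continuous_const)

end FA.RankinSelberg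

end
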